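/-
PROJECT COND — lead — the single missing input of the whole development, as a `Prop`.

Everything on the Frey–Serre–Ribet–Wiles route except the Langlands–Tunnell row is kernel-checked in
this repository (S02, S05, S07–S24, S28–S37, S41–S45, S48, S49, S51–S59).  The statements
S60, S06, S04, S03 and S01 need, in addition, that the mod-3 representation of a semistable curve is
residually modular (a consequence of the Langlands–Tunnell theorem).  This file states that input in
the exact shape in which the landed modularity lifting theorem `Fermat.Agent.S59.result` consumes it;
the other files of `Fermat/Agent/COND/` derive S60, S04, S06, S03 and S01 from it.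
-/
import Mathlib
import Fermat.Statements.S59

set_option autoImplicit false

namespace Fermat.Agent.COND

open WeierstrassCurve

/-- **Residual modularity at `3`** (the Langlands–Tunnell input, in the shape consumed by the landed
`S59`): a semistable integral Weierstrass curve with irreducible mod-`3` representation is residually
modular at `3` of some level `M` with `9 ∤ M` and `M` cube-free away from `3`. -/
def ResidualModularityModThree : Prop :=
  ∀ W : WeierstrassCurve ℤ, W.Δ ≠ 0 → W.IsSemistableModel → W.ModRepIsIrreducible 3 →
    ∃ M : ℕ, 0 < M ∧ W.IsResiduallyModularOfLevel 3 M ∧ ¬ 3 ^ 2 ∣ M ∧
      ∀ q : ℕ, q.Prime → q ≠ 3 → ¬ q ^ 3 ∣ M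

end Fermat.Agent.COND
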