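/-
PROJECT COND — lead — S60 (every semistable curve is modular) from residual modularity at `3`.

Chain: S51 (mod 3 or mod 5 irreducible); if mod 3: hypothesis + S59 at `p = 3`;
if mod 5: S52 (the 3–5 switch) gives `W'`, hypothesis + S59 at `3` make `W'` modular of its exact
(squarefree) conductor level, which makes `W` residually modular at `5`; S59 at `p = 5`.
-/
import Mathlib
import Fermat.Agent.S51
import Fermat.Agent.S52
import Fermat.Agent.S59
import Fermat.Agent.COND.Hyp_lead

set_option autoImplicit false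

namespace Fermat.Agent.COND

open WeierstrassCurve CuspForm

/-- exact conductor level gives modularity of the rational curve. -/
theorem isModular_of_mlc1 {W : WeierstrassCurve ℤ}
    (h : Mlc1IsModularModelOfExactConductorLevel W) :
    (W.map (Int.castRingHom ℚ)).IsModular := by
  obtain ⟨N, hN, -, -, hmod⟩ := h
  exact ⟨W, ⟨1, by rw [one_smul]⟩, N, hN, hmod⟩

/-- **modularity lifting at `3` fed by the hypothesis.** -/
theorem mlc1_of_irreducible_three (H : ResidualModularityModThree)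
    (W : WeierstrassCurve ℤ) (hΔ : W.Δ ≠ 0) (hW : W.IsSemistableModel)
    (h3 : W.ModRepIsIrreducible 3) : Mlc1IsModularModelOfExactConductorLevel W := by
  obtain ⟨M, hM, hres, h9, hcube⟩ := H W hΔ hW h3
  haveI : NeZero M := ⟨hM.ne'⟩
  exact Fermat.Agent.S59.result 3 (Or.inl rfl) W hΔ hW h3 M hres h9 hcube

/-- a curve congruent mod `5` to a curve that is modular of its exact conductor level is residually
modular at `5` of that (squarefree) level. -/
theorem isResiduallyModularOfLevel_five_of_switch {W W' : WeierstrassCurve ℤ}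
    (hcong : ∀ ℓ : ℕ, ℓ.Prime → W.IsGoodPrimeFor ℓ → W'.IsGoodPrimeFor ℓ → ℓ ≠ 5 →
      (5 : ℤ) ∣ (W'.apOfModel ℓ - W.apOfModel ℓ))
    {N : ℕ} (hbad : ∀ q : ℕ, q.Prime → (q ∣ N ↔ (q : ℤ) ∣ W'.Δ))
    (hmod : W'.IsModularModelOfLevel N) : W.IsResiduallyModularOfLevel 5 N := by
  obtain ⟨f, hf, hfW⟩ := hmod
  obtain ⟨𝔪, h𝔪, h5𝔪⟩ := FLTPrelim.exists_maximalIdeal_natCast_prime_mem (p := 5) (by norm_num)
  refine ⟨f, 𝔪, hf, h𝔪, h5𝔪, ?_⟩
  intro ℓ hℓ hgood hℓN hℓ5
  have hgood' : W'.IsGoodPrimeFor ℓ := fun hdvd => hℓN ((hbad ℓ hℓ).mpr hdvd)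
  refine ⟨((W'.apOfModel ℓ : ℤ) : integralClosure ℤ ℂ), ?_, ?_⟩
  · rw [hfW ℓ hℓ hgood' hℓN]
    push_cast
    rfl
  · obtain ⟨k, hk⟩ := hcong ℓ hℓ hgood hgood' hℓ5
    have h1 : ((W'.apOfModel ℓ : ℤ) : integralClosure ℤ ℂ) -
        ((W.apOfModel ℓ : ℤ) : integralClosure ℤ ℂ) =
        ((5 : ℕ) : integralClosure ℤ ℂ) * ((k : ℤ) : integralClosure ℤ ℂ) := by
      rw [← Int.cast_sub, hk]
      push_cast
      ring
    rw [h1]
    exact 𝔪.mul_mem_right _ h5𝔪

/-- **S60 from residual modularity at `3`**: every semistable integral Weierstrass curve with nonzero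
discriminant is modular of its exact conductor level. -/
theorem mlc1_of_semistable (H : ResidualModularityModThree)
    (W : WeierstrassCurve ℤ) (hΔ : W.Δ ≠ 0) (hW : W.IsSemistableModel) :
    Mlc1IsModularModelOfExactConductorLevel W := by
  rcases Fermat.Agent.S51.result W hΔ hW with h3 | h5
  · exact mlc1_of_irreducible_three H W hΔ hW h3
  · obtain ⟨W', hΔ', hW', h3', hcong⟩ := Fermat.Agent.S52.result W hΔ hW h5
    obtain ⟨N, hN, hsq, hbad, hmod⟩ := mlc1_of_irreducible_three H W' hΔ' hW' h3'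
    haveI : NeZero N := ⟨hN.ne'⟩
    have hres : W.IsResiduallyModularOfLevel 5 N :=
      isResiduallyModularOfLevel_five_of_switch hcong hbad hmod
    have h25 : ¬ 5 ^ 2 ∣ N := by
      intro h
      have h5u : IsUnit (5 : ℕ) := hsq 5 (by simpa [pow_two] using h)
      exact absurd (Nat.isUnit_iff.mp h5u) (by norm_num)
    have hcube : ∀ q : ℕ, q.Prime → q ≠ 5 → ¬ q ^ 3 ∣ N := by
      intro q hq _ h
      have hqq : q * q ∣ N := Dvd.dvd.trans ⟨q, by ring⟩ h
      exact hq.one_lt.ne' (Nat.isUnit_iff.mp (hsq q hqq))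
    exact Fermat.Agent.S59.result 5 (Or.inr rfl) W hΔ hW h5 N hres h25 hcube

/-- **the frozen S60 statement, from residual modularity at `3`.** -/
theorem s60_of_residualModularityModThree (H : ResidualModularityModThree)
    (W : WeierstrassCurve ℤ) (hΔ : W.Δ ≠ 0) (hW : W.IsSemistableModel) :
    (W.map (Int.castRingHom ℚ)).IsModular :=
  isModular_of_mlc1 (mlc1_of_semistable H W hΔ hW)

end Fermat.Agent.COND
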