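/-
PROJECT COND — lead — S04, S06, S03 and S01 (Fermat's Last Theorem) from residual modularity at `3`.

* S04: the Frey curve is modular (`s60` chain applied to the semistable integral Frey model);
* S06: its mod-`p` representation is modular of a conductor level;
* S03: no Frey package exists (S04 + S09 irreducibility + S45 descent to level two + S07);
* S01: Fermat's Last Theorem (S03 + S02 for prime exponents `p ≥ 5`; Mathlib for `3` and `4`).
-/
import Mathlib
import Fermat.Agent.S02
import Fermat.Agent.S07
import Fermat.Agent.S09
import Fermat.Agent.S45
import Fermat.Agent.CK.S45PRE_helper5_Chain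
import Fermat.Agent.COND.S60_lead

set_option autoImplicit false

namespace Fermat.Agent.COND

open WeierstrassCurve WeierstrassCurve.Affine WeierstrassCurve.Affine.Point CuspForm
open Fermat.Agent.CK Fermat.Agent.FC

/-- the integral Frey model is modular of its exact conductor level. -/
theorem frey_mlc1 (H : ResidualModularityModThree) (P : FreyPackage) :
    Mlc1IsModularModelOfExactConductorLevel P.freyCurveInt :=
  mlc1_of_semistable H P.freyCurveInt (freyCurveInt_Δ_ne_zero P) (freyCurveInt_isSemistableModel P)

/-- **the frozen S04 statement, from residual modularity at `3`**: the Frey curve is modular. -/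
theorem s04_of_residualModularityModThree (H : ResidualModularityModThree) (P : FreyPackage) :
    P.freyCurve.IsModular := by
  obtain ⟨N, hN, -, -, hmod⟩ := frey_mlc1 H P
  exact ⟨P.freyCurveInt, freyCurveInt_isIntegralModelOf P, N, hN, hmod⟩

/-- **the frozen S06 statement, from residual modularity at `3`**: the mod-`p` representation of the
Frey curve is modular of a conductor level of the package. -/
theorem s06_of_residualModularityModThree (H : ResidualModularityModThree) (P : FreyPackage) :
    ∃ N : ℕ, P.IsConductorLevel N ∧ P.ModularRepOfLevel N := by
  obtain ⟨N, hN, hsq, hbad, hmod⟩ := frey_mlc1 H P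
  refine ⟨N, ⟨hN, hsq, fun q hq hqN => ?_⟩, modularRepOfLevel_of_isModularModelOfLevel P hmod⟩
  exact dvd_abc_of_dvd_freyCurveInt_Δ P hq ((hbad q hq).mp hqN)

/-- **the frozen S03 statement, from residual modularity at `3`**: there is no Frey package. -/
theorem s03_of_residualModularityModThree (H : ResidualModularityModThree) (P : FreyPackage) :
    False := by
  obtain ⟨f, hf⟩ := Fermat.Agent.S45.result P (s04_of_residualModularityModThree H P)
    (Fermat.Agent.S09.result P)
  exact hf (Fermat.Agent.S07.result f)

/-- Fermat's Last Theorem for a prime exponent `p ≥ 5`, from residual modularity at `3`. -/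
theorem fermatLastTheoremFor_of_five_le (H : ResidualModularityModThree) {p : ℕ} (pp : p.Prime)
    (hp5 : 5 ≤ p) : FermatLastTheoremFor p := by
  rw [fermatLastTheoremFor_iff_int]
  intro a b c ha hb hc habc
  obtain ⟨P⟩ := Fermat.Agent.S02.result a b c ha hb hc p pp hp5 habc
  exact s03_of_residualModularityModThree H P

/-- **Fermat's Last Theorem (Mathlib's `FermatLastTheorem`), from residual modularity at `3`.** -/
theorem fermatLastTheorem_of_residualModularityModThree (H : ResidualModularityModThree) :
    FermatLastTheorem := by
  refine FermatLastTheorem.of_odd_primes fun p pp hodd => ?_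
  by_cases h3 : p = 3
  · subst h3
    exact fermatLastTheoremThree
  · have h2 : p ≠ 2 := fun h => by subst h; exact absurd hodd (by decide)
    have h4 : p ≠ 4 := fun h => by subst h; exact absurd pp (by decide)
    have hp5 : 5 ≤ p := by
      have := pp.two_le
      omega
    exact fermatLastTheoremFor_of_five_le H pp hp5

/-- **the frozen S01 statement, from residual modularity at `3`.** -/
theorem s01_of_residualModularityModThree (H : ResidualModularityModThree)
    (n : ℕ) (hn : 3 ≤ n) (a b c : ℕ) (ha : 0 < a) (hb : 0 < b) (hc : 0 < c) :
    a ^ n + b ^ n ≠ c ^ n :=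
  fermatLastTheorem_of_residualModularityModThree H n hn a b c ha.ne' hb.ne' hc.ne'

end Fermat.Agent.COND
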